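/-
S25 package A2, item (CB1) -- core lemmas (helper1390).

* `exists_fg_fst_bound`, `exists_fg_snd_bound`: the "degree bound": if `N₁` is a direct summand of
  `R[X]^m` compatibly with `X ↦ f` and `N₂` is finitely generated over `R[g]`, then the first
  components of all global sections lie in ONE finitely generated `R`-submodule of `N₁`
  (and symmetrically).
* `H0_finite_projective`: if moreover `H¹(N) = 0` and `N₁`, `N₂`, `N₁₂` are `R`-projective, then
  `H⁰(N)` is a finitely generated projective `R`-module (a retract of `N₁ × N₂`).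

Imports only `S25/Core.lean` (helper5425, verbatim).  No noetherian hypothesis on `R`.
-/
import Fermat.Agent.S25.Core

set_option autoImplicit false

universe u

namespace Fermat.Agent.S25.CONN.Count.H1390

open Fermat.Agent.S25 Polynomial

variable {R : Type u} [CommRing R] {𝔹 : TwoChart R} (N : GluedModule 𝔹)

/-- Cancelling a power of `X` on vectors of polynomials. -/
theorem X_pow_smul_cancel {m : ℕ} (u : ℕ) {v w : Fin m → R[X]}
    (h : (X : R[X]) ^ u • v = (X : R[X]) ^ u • w) : v = w := by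
  funext i
  have hi := congrFun h i
  simp only [Pi.smul_apply, smul_eq_mul] at hi
  exact (monic_X_pow u).isRegular.left hi

/-- Degree bookkeeping: `X ^ c * p` of degree `≤ c + D` forces `p` of degree `≤ D`. -/
theorem natDegree_le_of_X_pow_mul {p : R[X]} {c D : ℕ}
    (h : ((X : R[X]) ^ c * p).natDegree ≤ c + D) : p.natDegree ≤ D := by
  rcases subsingleton_or_nontrivial R with hR | hR
  · have : p = 0 := Subsingleton.elim _ _
    rw [this]; simp
  by_cases hp : p = 0
  · rw [hp]; simp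
  · rw [natDegree_X_pow_mul c hp] at h
    omega

/-- **Degree bound, first chart.**  Assume `N₁` is a retract of `R[X]^m` via `j`, `π` with
`j (f • n) = X • j n`, and `N₂` is spanned over `R` by the `g ^ t • e`, `e` in a finite set.  Then
there is a finitely generated `R`-submodule of `N₁` containing the first component of every
global section of `N`. -/
theorem exists_fg_fst_bound {m : ℕ}
    (j : N.N₁ →ₗ[R] (Fin m → R[X])) (π : (Fin m → R[X]) →ₗ[R] N.N₁)
    (hπj : ∀ n, π (j n) = n) (hj : ∀ n, j (𝔹.f • n) = (X : R[X]) • j n)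
    (s₂ : Finset N.N₂)
    (hs₂ : Submodule.span R {x : N.N₂ | ∃ t : ℕ, ∃ e ∈ s₂, x = 𝔹.g ^ t • e} = ⊤) :
    ∃ F₁ : Submodule R N.N₁, F₁.FG ∧ ∀ a b, N.ι₁ a = N.ι₂ b → a ∈ F₁ := by
  classical
  have hjpow : ∀ (c : ℕ) (n : N.N₁), j (𝔹.f ^ c • n) = (X : R[X]) ^ c • j n := by
    intro c
    induction c with
    | zero => intro n; simp
    | succ c ih =>
      intro n
      rw [pow_succ, mul_smul, ih, hj, smul_smul, ← pow_succ]
  have hexp : ∀ e : N.N₂, ∃ t : ℕ, ∃ n₁ : N.N₁, 𝔹.r₁ 𝔹.f ^ t • N.ι₂ e = N.ι₁ n₁ := by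
    intro e
    obtain ⟨n₁, t, h⟩ := N.surj₁ (N.ι₂ e)
    refine ⟨t, n₁, ?_⟩
    rw [h, smul_smul, ← mul_pow, 𝔹.fg, one_pow, one_smul]
  choose tfun nfun htn using hexp
  let D₀ : ℕ := s₂.sup (fun e => Finset.univ.sup (fun i : Fin m => (j (nfun e) i).natDegree))
  have hD₀ : ∀ e ∈ s₂, ∀ i, (j (nfun e) i).natDegree ≤ D₀ := by
    intro e he i
    exact (Finset.le_sup (f := fun i : Fin m => (j (nfun e) i).natDegree)
      (Finset.mem_univ i)).trans
      (Finset.le_sup (f := fun e => Finset.univ.sup (fun i : Fin m => (j (nfun e) i).natDegree))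
        he)
  -- every `ι₂ b` is `f^{-c} ι₁ a'` with `deg j(a') ≤ c + D₀`
  have key : ∀ b : N.N₂, ∃ (c : ℕ) (a' : N.N₁), 𝔹.r₁ 𝔹.f ^ c • N.ι₂ b = N.ι₁ a' ∧
      ∀ i, (j a' i).natDegree ≤ c + D₀ := by
    intro b
    have hb : b ∈ Submodule.span R {x : N.N₂ | ∃ t : ℕ, ∃ e ∈ s₂, x = 𝔹.g ^ t • e} := by
      rw [hs₂]; trivial
    induction hb using Submodule.span_induction with
    | mem x hx =>
      obtain ⟨t, e, he, rfl⟩ := hx
      refine ⟨tfun e + t, nfun e, ?_, fun i => (hD₀ e he i).trans (Nat.le_add_left _ _)⟩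
      rw [N.ι₂_smul, map_pow, smul_smul, pow_add, mul_assoc, ← mul_pow, 𝔹.fg, one_pow, mul_one,
        htn]
    | zero =>
      refine ⟨0, 0, by simp, fun i => ?_⟩
      simp
    | add x y _ _ hx hy =>
      obtain ⟨c, a', h1, h2⟩ := hx
      obtain ⟨c', a'', h1', h2'⟩ := hy
      refine ⟨c + c', 𝔹.f ^ c' • a' + 𝔹.f ^ c • a'', ?_, fun i => ?_⟩
      · rw [map_add, smul_add, map_add, N.ι₁_smul, N.ι₁_smul, ← h1, ← h1', map_pow, map_pow,
          smul_smul, smul_smul, ← pow_add, ← pow_add, add_comm c' c]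
      · rw [map_add, hjpow, hjpow]
        simp only [Pi.add_apply, Pi.smul_apply, smul_eq_mul]
        refine (natDegree_add_le _ _).trans (max_le ?_ ?_)
        · refine (natDegree_mul_le).trans ?_
          have h3 := natDegree_X_pow_le (R := R) c'
          have h4 := h2 i
          omega
        · refine (natDegree_mul_le).trans ?_
          have h3 := natDegree_X_pow_le (R := R) c
          have h4 := h2' i
          omega
    | smul r x _ hx =>
      obtain ⟨c, a', h1, h2⟩ := hx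
      refine ⟨c, r • a', ?_, fun i => ?_⟩
      · rw [map_smul, map_smul, smul_comm, h1]
      · rw [map_smul]
        simp only [Pi.smul_apply]
        exact (natDegree_smul_le r _).trans (h2 i)
  -- the bounding module
  let P : Submodule R (Fin m → R[X]) := Submodule.pi Set.univ (fun _ => degreeLE R (D₀ : WithBot ℕ))
  have hP : P.FG := by
    refine Submodule.fg_pi (fun _ => ?_)
    rw [degreeLE_eq_span_X_pow]
    exact Submodule.fg_span (Finset.finite_toSet _)
  refine ⟨P.map π, hP.map π, fun a b hab => ?_⟩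
  obtain ⟨c, a', h1, h2⟩ := key b
  have h5 : N.ι₁ (𝔹.f ^ c • a - a') = 0 := by
    rw [map_sub, N.ι₁_smul, map_pow, hab, h1, sub_self]
  obtain ⟨u, hu⟩ := N.ker₁ _ h5
  have h6 : (X : R[X]) ^ u • ((X : R[X]) ^ c • j a) = (X : R[X]) ^ u • j a' := by
    have h7 := congrArg j hu
    rw [hjpow, map_sub, hjpow, map_zero, smul_sub, sub_eq_zero] at h7
    exact h7
  have h8 : (X : R[X]) ^ c • j a = j a' := X_pow_smul_cancel u h6
  refine ⟨j a, ?_, hπj a⟩
  rw [SetLike.mem_coe, Submodule.mem_pi]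
  intro i _
  rw [mem_degreeLE]
  refine natDegree_le_iff_degree_le.1 (natDegree_le_of_X_pow_mul (c := c) ?_)
  have h9 := congrFun h8 i
  simp only [Pi.smul_apply, smul_eq_mul] at h9
  rw [h9]
  exact h2 i

/-- **Degree bound, second chart.**  Mirror image of `exists_fg_fst_bound`. -/
theorem exists_fg_snd_bound {m : ℕ}
    (j : N.N₂ →ₗ[R] (Fin m → R[X])) (π : (Fin m → R[X]) →ₗ[R] N.N₂)
    (hπj : ∀ n, π (j n) = n) (hj : ∀ n, j (𝔹.g • n) = (X : R[X]) • j n)
    (s₁ : Finset N.N₁)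
    (hs₁ : Submodule.span R {x : N.N₁ | ∃ t : ℕ, ∃ e ∈ s₁, x = 𝔹.f ^ t • e} = ⊤) :
    ∃ F₂ : Submodule R N.N₂, F₂.FG ∧ ∀ a b, N.ι₁ a = N.ι₂ b → b ∈ F₂ := by
  classical
  have hgf : 𝔹.r₂ 𝔹.g * 𝔹.r₁ 𝔹.f = 1 := by rw [mul_comm]; exact 𝔹.fg
  have hjpow : ∀ (c : ℕ) (n : N.N₂), j (𝔹.g ^ c • n) = (X : R[X]) ^ c • j n := by
    intro c
    induction c with
    | zero => intro n; simp
    | succ c ih =>
      intro n
      rw [pow_succ, mul_smul, ih, hj, smul_smul, ← pow_succ]
  have hexp : ∀ e : N.N₁, ∃ t : ℕ, ∃ n₁ : N.N₂, 𝔹.r₂ 𝔹.g ^ t • N.ι₁ e = N.ι₂ n₁ := by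
    intro e
    obtain ⟨n₁, t, h⟩ := N.surj₂ (N.ι₁ e)
    refine ⟨t, n₁, ?_⟩
    rw [h, smul_smul, ← mul_pow, hgf, one_pow, one_smul]
  choose tfun nfun htn using hexp
  let D₀ : ℕ := s₁.sup (fun e => Finset.univ.sup (fun i : Fin m => (j (nfun e) i).natDegree))
  have hD₀ : ∀ e ∈ s₁, ∀ i, (j (nfun e) i).natDegree ≤ D₀ := by
    intro e he i
    exact (Finset.le_sup (f := fun i : Fin m => (j (nfun e) i).natDegree)
      (Finset.mem_univ i)).trans
      (Finset.le_sup (f := fun e => Finset.univ.sup (fun i : Fin m => (j (nfun e) i).natDegree))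
        he)
  -- every `ι₂ b` is `f^{-c} ι₁ a'` with `deg j(a') ≤ c + D₀`
  have key : ∀ b : N.N₁, ∃ (c : ℕ) (a' : N.N₂), 𝔹.r₂ 𝔹.g ^ c • N.ι₁ b = N.ι₂ a' ∧
      ∀ i, (j a' i).natDegree ≤ c + D₀ := by
    intro b
    have hb : b ∈ Submodule.span R {x : N.N₁ | ∃ t : ℕ, ∃ e ∈ s₁, x = 𝔹.f ^ t • e} := by
      rw [hs₁]; trivial
    induction hb using Submodule.span_induction with
    | mem x hx =>
      obtain ⟨t, e, he, rfl⟩ := hx
      refine ⟨tfun e + t, nfun e, ?_, fun i => (hD₀ e he i).trans (Nat.le_add_left _ _)⟩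
      rw [N.ι₁_smul, map_pow, smul_smul, pow_add, mul_assoc, ← mul_pow, hgf, one_pow, mul_one,
        htn]
    | zero =>
      refine ⟨0, 0, by simp, fun i => ?_⟩
      simp
    | add x y _ _ hx hy =>
      obtain ⟨c, a', h1, h2⟩ := hx
      obtain ⟨c', a'', h1', h2'⟩ := hy
      refine ⟨c + c', 𝔹.g ^ c' • a' + 𝔹.g ^ c • a'', ?_, fun i => ?_⟩
      · rw [map_add, smul_add, map_add, N.ι₂_smul, N.ι₂_smul, ← h1, ← h1', map_pow, map_pow,
          smul_smul, smul_smul, ← pow_add, ← pow_add, add_comm c' c]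
      · rw [map_add, hjpow, hjpow]
        simp only [Pi.add_apply, Pi.smul_apply, smul_eq_mul]
        refine (natDegree_add_le _ _).trans (max_le ?_ ?_)
        · refine (natDegree_mul_le).trans ?_
          have h3 := natDegree_X_pow_le (R := R) c'
          have h4 := h2 i
          omega
        · refine (natDegree_mul_le).trans ?_
          have h3 := natDegree_X_pow_le (R := R) c
          have h4 := h2' i
          omega
    | smul r x _ hx =>
      obtain ⟨c, a', h1, h2⟩ := hx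
      refine ⟨c, r • a', ?_, fun i => ?_⟩
      · rw [map_smul, map_smul, smul_comm, h1]
      · rw [map_smul]
        simp only [Pi.smul_apply]
        exact (natDegree_smul_le r _).trans (h2 i)
  -- the bounding module
  let P : Submodule R (Fin m → R[X]) := Submodule.pi Set.univ (fun _ => degreeLE R (D₀ : WithBot ℕ))
  have hP : P.FG := by
    refine Submodule.fg_pi (fun _ => ?_)
    rw [degreeLE_eq_span_X_pow]
    exact Submodule.fg_span (Finset.finite_toSet _)
  refine ⟨P.map π, hP.map π, fun b a hab' => ?_⟩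
  have hab : N.ι₂ a = N.ι₁ b := hab'.symm
  obtain ⟨c, a', h1, h2⟩ := key b
  have h5 : N.ι₂ (𝔹.g ^ c • a - a') = 0 := by
    rw [map_sub, N.ι₂_smul, map_pow, hab, h1, sub_self]
  obtain ⟨u, hu⟩ := N.ker₂ _ h5
  have h6 : (X : R[X]) ^ u • ((X : R[X]) ^ c • j a) = (X : R[X]) ^ u • j a' := by
    have h7 := congrArg j hu
    rw [hjpow, map_sub, hjpow, map_zero, smul_sub, sub_eq_zero] at h7
    exact h7
  have h8 : (X : R[X]) ^ c • j a = j a' := X_pow_smul_cancel u h6
  refine ⟨j a, ?_, hπj a⟩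
  rw [SetLike.mem_coe, Submodule.mem_pi]
  intro i _
  rw [mem_degreeLE]
  refine natDegree_le_iff_degree_le.1 (natDegree_le_of_X_pow_mul (c := c) ?_)
  have h9 := congrFun h8 i
  simp only [Pi.smul_apply, smul_eq_mul] at h9
  rw [h9]
  exact h2 i


/-- Global sections: membership. -/
theorem mem_H0_iff (x : N.N₁ × N.N₂) : x ∈ N.H0 ↔ N.ι₁ x.1 = N.ι₂ x.2 := by
  show N.d x = 0 ↔ _
  simp [GluedModule.d, sub_eq_zero]

/-- **(CB1), core form.**  If `H¹(N) = 0` (the Čech differential is onto), the three modules are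
`R`-projective and the global sections are bounded by finitely generated submodules, then `H⁰(N)`
is a finitely generated projective `R`-module. -/
theorem H0_finite_projective [Module.Projective R N.N₁] [Module.Projective R N.N₂]
    [Module.Projective R N.N₁₂] (hd : Function.Surjective N.d)
    (F₁ : Submodule R N.N₁) (hF₁ : F₁.FG) (F₂ : Submodule R N.N₂) (hF₂ : F₂.FG)
    (hF : ∀ a b, N.ι₁ a = N.ι₂ b → a ∈ F₁ ∧ b ∈ F₂) :
    Module.Finite R N.H0 ∧ Module.Projective R N.H0 := by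
  obtain ⟨σ, hσ⟩ := Module.projective_lifting_property N.d LinearMap.id hd
  have hσ' : ∀ y, N.d (σ y) = y := fun y => LinearMap.congr_fun hσ y
  let ρ₀ : (N.N₁ × N.N₂) →ₗ[R] (N.N₁ × N.N₂) := LinearMap.id - σ.comp N.d
  have hρ₀ : ∀ x, ρ₀ x ∈ N.H0 := by
    intro x
    show N.d (x - σ (N.d x)) = 0
    rw [map_sub, hσ', sub_self]
  let ρ : (N.N₁ × N.N₂) →ₗ[R] N.H0 := ρ₀.codRestrict N.H0 hρ₀
  have hρ : ∀ x : N.H0, ρ x = x := by
    intro x
    apply Subtype.ext
    show (x : N.N₁ × N.N₂) - σ (N.d x) = x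
    have hx : N.d (x : N.N₁ × N.N₂) = 0 := x.2
    rw [hx, map_zero, sub_zero]
  refine ⟨?_, Module.Projective.of_split N.H0.subtype ρ (LinearMap.ext hρ)⟩
  have hfin : Module.Finite R (F₁.prod F₂) := Module.Finite.of_fg (hF₁.prod hF₂)
  refine Module.Finite.of_surjective (ρ.comp (F₁.prod F₂).subtype) ?_
  intro x
  have hx : N.ι₁ x.1.1 = N.ι₂ x.1.2 := (mem_H0_iff N x.1).1 x.2
  exact ⟨⟨x.1, ⟨(hF _ _ hx).1, (hF _ _ hx).2⟩⟩, hρ x⟩

open scoped Classical in
/-- A retract of `R[X]^m` compatible with `X ↦ b` is spanned over `R` by the `b ^ t • π (e i)`. -/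
theorem span_pow_smul_eq_top_of_retract {B M : Type u} [CommRing B] [Algebra R B]
    [AddCommGroup M] [Module R M] [Module B M] [IsScalarTower R B M] (b : B) {m : ℕ}
    (j : M →ₗ[R] (Fin m → R[X])) (π : (Fin m → R[X]) →ₗ[R] M)
    (hπj : ∀ n, π (j n) = n) (hπ : ∀ v, π ((X : R[X]) • v) = b • π v) :
    Submodule.span R {x : M | ∃ t : ℕ, ∃ e ∈ (Finset.univ.image
      (fun i : Fin m => π (Pi.single i (1 : R[X])))), x = b ^ t • e} = ⊤ := by
  classical
  have hπpow : ∀ (c : ℕ) (v : Fin m → R[X]), π ((X : R[X]) ^ c • v) = b ^ c • π v := by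
    intro c
    induction c with
    | zero => intro v; simp
    | succ c ih =>
      intro v
      rw [pow_succ', mul_smul, hπ, ih, smul_smul, ← pow_succ']
  rw [eq_top_iff]
  intro n _
  rw [← hπj n]
  -- decompose `j n`
  have hdec : j n = ∑ i : Fin m, Pi.single i (j n i) := by
    funext i'
    simp [Finset.sum_apply, Pi.single_apply]
  rw [hdec, map_sum]
  refine Submodule.sum_mem _ (fun i _ => ?_)
  -- `Pi.single i p = ∑ coeff • X^t • single i 1`
  have hp : ∀ p : R[X], π (Pi.single i p) ∈ Submodule.span R {x : M | ∃ t : ℕ, ∃ e ∈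
      (Finset.univ.image (fun i : Fin m => π (Pi.single i (1 : R[X])))), x = b ^ t • e} := by
    intro p
    induction p using Polynomial.induction_on' with
    | add p q hp hq =>
      rw [Pi.single_add, map_add]
      exact Submodule.add_mem _ hp hq
    | monomial t a =>
      have h1 : (Pi.single i (monomial t a) : Fin m → R[X]) =
          a • ((X : R[X]) ^ t • Pi.single i (1 : R[X])) := by
        funext i'
        simp only [Pi.smul_apply, smul_eq_mul]
        by_cases hi : i' = i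
        · subst hi
          rw [Pi.single_eq_same, Pi.single_eq_same, mul_one, smul_X_eq_monomial]
        · rw [Pi.single_eq_of_ne hi, Pi.single_eq_of_ne hi, mul_zero, smul_zero]
      rw [h1, map_smul, hπpow]
      refine Submodule.smul_mem _ a (Submodule.subset_span ⟨t, _, ?_, rfl⟩)
      exact Finset.mem_image.2 ⟨i, Finset.mem_univ i, rfl⟩
  exact hp _

/-- **(CB1), packaged core form.**  If `N₁` (resp. `N₂`) is a retract of `R[X]^{m₁}` (resp.
`R[X]^{m₂}`) compatibly with `X ↦ f` (resp. `X ↦ g`), `N₁₂` is `R`-projective and `H¹(N) = 0`,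
then `H⁰(N)` is a finitely generated projective `R`-module. -/
theorem H0_finite_projective_of_retracts {m₁ m₂ : ℕ}
    (j₁ : N.N₁ →ₗ[R] (Fin m₁ → R[X])) (π₁ : (Fin m₁ → R[X]) →ₗ[R] N.N₁)
    (hπj₁ : ∀ n, π₁ (j₁ n) = n) (hj₁ : ∀ n, j₁ (𝔹.f • n) = (X : R[X]) • j₁ n)
    (hπ₁ : ∀ v, π₁ ((X : R[X]) • v) = 𝔹.f • π₁ v)
    (j₂ : N.N₂ →ₗ[R] (Fin m₂ → R[X])) (π₂ : (Fin m₂ → R[X]) →ₗ[R] N.N₂)
    (hπj₂ : ∀ n, π₂ (j₂ n) = n) (hj₂ : ∀ n, j₂ (𝔹.g • n) = (X : R[X]) • j₂ n)
    (hπ₂ : ∀ v, π₂ ((X : R[X]) • v) = 𝔹.g • π₂ v)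
    [Module.Projective R N.N₁₂] (hd : Function.Surjective N.d) :
    Module.Finite R N.H0 ∧ Module.Projective R N.H0 := by
  classical
  have hP₁ : Module.Projective R N.N₁ :=
    Module.Projective.of_split j₁ π₁ (LinearMap.ext hπj₁)
  have hP₂ : Module.Projective R N.N₂ :=
    Module.Projective.of_split j₂ π₂ (LinearMap.ext hπj₂)
  obtain ⟨F₁, hF₁, h1⟩ := exists_fg_fst_bound N j₁ π₁ hπj₁ hj₁ _
    (span_pow_smul_eq_top_of_retract (R := R) 𝔹.g j₂ π₂ hπj₂ hπ₂)
  obtain ⟨F₂, hF₂, h2⟩ := exists_fg_snd_bound N j₂ π₂ hπj₂ hj₂ _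
    (span_pow_smul_eq_top_of_retract (R := R) 𝔹.f j₁ π₁ hπj₁ hπ₁)
  exact H0_finite_projective N hd F₁ hF₁ F₂ hF₂ (fun a b hab => ⟨h1 a b hab, h2 a b hab⟩)

end Fermat.Agent.S25.CONN.Count.H1390
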