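/-
S25 package A2 support (helper1390): the universal property of `N₁₂ = N₁[1/f]` directly from the
Core axioms (no `IsLocalizedModule` instance juggling), in an abstract setting that applies to both
charts, and its consequence: the overlap module of a glued module whose chart module is finitely
generated projective is finitely generated projective over the overlap ring, hence `R`-projective
when the overlap ring is `R`-projective.

Mathlib + `S25/Core.lean` only.
-/
import Fermat.Agent.S25.Core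

set_option autoImplicit false

universe u

namespace Fermat.Agent.S25.CONN.Count.H1390

open Fermat.Agent.S25

section Abstract

variable {B B' : Type*} [CommRing B] [CommRing B'] (r : B →+* B') (f : B) (G : B')
  {N N' : Type*} [AddCommGroup N] [AddCommGroup N'] [Module B N] [Module B' N']
  (ι : N →+ N')

/-- Two `B'`-linear maps out of `N' = N[1/f]` agreeing on the image of `N` are equal. -/
theorem locLift_ext (hsurj : ∀ y : N', ∃ (n : N) (m : ℕ), y = G ^ m • ι n)
    {M : Type*} [AddCommGroup M] [Module B' M] (Φ Ψ : N' →ₗ[B'] M)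
    (h : ∀ n, Φ (ι n) = Ψ (ι n)) : Φ = Ψ := by
  ext y
  obtain ⟨n, m, rfl⟩ := hsurj y
  rw [map_smul, map_smul, h]

/-- The universal property of `N' = N[1/f]`: a semilinear map from `N` to a `B'`-module extends
to a `B'`-linear map on `N'`. -/
theorem exists_locLift (hfG : r f * G = 1) (hB : ∀ y : B', ∃ (a : B) (n : ℕ), y = r a * G ^ n)
    (hι : ∀ (b : B) (n : N), ι (b • n) = r b • ι n)
    (hsurj : ∀ y : N', ∃ (n : N) (m : ℕ), y = G ^ m • ι n)
    (hker : ∀ n : N, ι n = 0 → ∃ m : ℕ, f ^ m • n = 0)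
    {M : Type*} [AddCommGroup M] [Module B' M] (φ : N →+ M)
    (hφ : ∀ (b : B) (n : N), φ (b • n) = r b • φ n) :
    ∃ Φ : N' →ₗ[B'] M, ∀ n, Φ (ι n) = φ n := by
  have hFG : ∀ j : ℕ, r f ^ j * G ^ j = 1 := fun j => by rw [← mul_pow, hfG, one_pow]
  have hGF : ∀ j : ℕ, G ^ j * r f ^ j = 1 := fun j => by rw [mul_comm, hFG]
  have hιpow : ∀ (j : ℕ) (n : N), ι (f ^ j • n) = r f ^ j • ι n := fun j n => by
    rw [hι, map_pow]
  have hφpow : ∀ (j : ℕ) (n : N), φ (f ^ j • n) = r f ^ j • φ n := fun j n => by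
    rw [hφ, map_pow]
  -- the graph relation
  let Rel : N' → M → Prop := fun y z => ∃ (n : N) (m : ℕ), y = G ^ m • ι n ∧ z = G ^ m • φ n
  have hfun : ∀ y z z', Rel y z → Rel y z' → z = z' := by
    rintro y z z' ⟨n, m, rfl, rfl⟩ ⟨n', m', h, rfl⟩
    -- `ι (f^m' n - f^m n') = 0`
    have h1 : ι (f ^ m' • n - f ^ m • n') = 0 := by
      rw [map_sub, hιpow, hιpow, sub_eq_zero]
      have h2 : r f ^ (m + m') • (G ^ m • ι n) = r f ^ (m + m') • (G ^ m' • ι n') := by rw [h]
      rw [smul_smul, smul_smul] at h2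
      have e1 : r f ^ (m + m') * G ^ m = r f ^ m' := by
        rw [pow_add, mul_comm (r f ^ m), mul_assoc, hFG, mul_one]
      have e2 : r f ^ (m + m') * G ^ m' = r f ^ m := by
        rw [pow_add, mul_assoc, hFG, mul_one]
      rw [e1, e2] at h2
      exact h2
    obtain ⟨c, hc⟩ := hker _ h1
    have h3 : φ (f ^ c • (f ^ m' • n - f ^ m • n')) = 0 := by rw [hc, map_zero]
    rw [smul_sub, map_sub, smul_smul, smul_smul, ← pow_add, ← pow_add, hφpow, hφpow,
      sub_eq_zero] at h3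
    -- multiply by `G^(c+m+m')`
    have h4 : G ^ (c + m + m') • (r f ^ (c + m') • φ n) =
        G ^ (c + m + m') • (r f ^ (c + m) • φ n') := by rw [h3]
    rw [smul_smul, smul_smul] at h4
    have e3 : G ^ (c + m + m') * r f ^ (c + m') = G ^ m := by
      have : G ^ (c + m + m') = G ^ m * G ^ (c + m') := by rw [← pow_add]; congr 1; omega
      rw [this, mul_assoc, hGF, mul_one]
    have e4 : G ^ (c + m + m') * r f ^ (c + m) = G ^ m' := by
      have : G ^ (c + m + m') = G ^ m' * G ^ (c + m) := by rw [← pow_add]; congr 1; omega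
      rw [this, mul_assoc, hGF, mul_one]
    rw [e3, e4] at h4
    exact h4
  have htot : ∀ y, ∃ z, Rel y z := by
    intro y
    obtain ⟨n, m, rfl⟩ := hsurj y
    exact ⟨_, n, m, rfl, rfl⟩
  have hadd : ∀ y z y' z', Rel y z → Rel y' z' → Rel (y + y') (z + z') := by
    rintro y z y' z' ⟨n, m, rfl, rfl⟩ ⟨n', m', rfl, rfl⟩
    refine ⟨f ^ m' • n + f ^ m • n', m + m', ?_, ?_⟩
    · rw [map_add, hιpow, hιpow, smul_add, smul_smul, smul_smul]
      have e1 : G ^ (m + m') * r f ^ m' = G ^ m := by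
        rw [pow_add, mul_assoc, hGF, mul_one]
      have e2 : G ^ (m + m') * r f ^ m = G ^ m' := by
        rw [pow_add, mul_comm (G ^ m), mul_assoc, hGF, mul_one]
      rw [e1, e2]
    · rw [map_add, hφpow, hφpow, smul_add, smul_smul, smul_smul]
      have e1 : G ^ (m + m') * r f ^ m' = G ^ m := by
        rw [pow_add, mul_assoc, hGF, mul_one]
      have e2 : G ^ (m + m') * r f ^ m = G ^ m' := by
        rw [pow_add, mul_comm (G ^ m), mul_assoc, hGF, mul_one]
      rw [e1, e2]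
  have hsmul : ∀ (b : B') y z, Rel y z → Rel (b • y) (b • z) := by
    rintro b y z ⟨n, m, rfl, rfl⟩
    obtain ⟨a, l, rfl⟩ := hB b
    refine ⟨a • n, l + m, ?_, ?_⟩
    · rw [hι, smul_smul, smul_smul, pow_add]
      congr 1
      ring
    · rw [hφ, smul_smul, smul_smul, pow_add]
      congr 1
      ring
  choose Φ hΦ using htot
  have hΦeq : ∀ y z, Rel y z → Φ y = z := fun y z h => hfun y _ _ (hΦ y) h
  refine ⟨{ toFun := Φ
            map_add' := fun y y' => hΦeq _ _ (hadd _ _ _ _ (hΦ y) (hΦ y'))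
            map_smul' := fun b y => hΦeq _ _ (hsmul b _ _ (hΦ y)) }, fun n => ?_⟩
  exact hΦeq _ _ ⟨n, 0, by simp, by simp⟩

/-- Localisation preserves "finitely generated projective": if `N` is a finitely generated
projective `B`-module then `N' = N[1/f]` is a retract of a finite free `B' = B[1/f]`-module. -/
theorem exists_retract_of_locLift (hfG : r f * G = 1)
    (hB : ∀ y : B', ∃ (a : B) (n : ℕ), y = r a * G ^ n)
    (hι : ∀ (b : B) (n : N), ι (b • n) = r b • ι n)
    (hsurj : ∀ y : N', ∃ (n : N) (m : ℕ), y = G ^ m • ι n)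
    (hker : ∀ n : N, ι n = 0 → ∃ m : ℕ, f ^ m • n = 0)
    [Module.Finite B N] [Module.Projective B N] :
    ∃ (n : ℕ) (J : N' →ₗ[B'] (Fin n → B')) (P : (Fin n → B') →ₗ[B'] N'), P ∘ₗ J = LinearMap.id := by
  classical
  obtain ⟨n, p, j, -, -, hpj⟩ := Module.Finite.exists_comp_eq_id_of_projective B N
  have hpj' : ∀ x, p (j x) = x := fun x => LinearMap.congr_fun hpj x
  -- the semilinear map `N → B'^n`
  let φ : N →+ (Fin n → B') :=
    { toFun := fun x i => r (j x i)
      map_zero' := by funext i; simp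
      map_add' := fun x y => by funext i; simp }
  have hφ : ∀ (b : B) (x : N), φ (b • x) = r b • φ x := by
    intro b x
    funext i
    simp [φ]
  obtain ⟨J, hJ⟩ := exists_locLift r f G ι hfG hB hι hsurj hker φ hφ
  let P : (Fin n → B') →ₗ[B'] N' :=
    (Fintype.linearCombination B' (fun i : Fin n => ι (p (Pi.single i 1))))
  refine ⟨n, J, P, ?_⟩
  refine locLift_ext G ι hsurj _ _ (fun x => ?_)
  rw [LinearMap.comp_apply, hJ, LinearMap.id_apply]
  show Fintype.linearCombination B' (fun i : Fin n => ι (p (Pi.single i 1))) (φ x) = ι x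
  rw [Fintype.linearCombination_apply]
  have h1 : ∀ i : Fin n, φ x i • ι (p (Pi.single i 1)) = ι (p (Pi.single i (j x i))) := by
    intro i
    show r (j x i) • ι (p (Pi.single i 1)) = _
    rw [← hι, ← map_smul, ← Pi.single_smul, smul_eq_mul, mul_one]
  rw [Finset.sum_congr rfl (fun i _ => h1 i), ← map_sum, ← map_sum]
  congr 1
  conv_rhs => rw [← hpj' x]
  congr 1
  funext i'
  simp [Finset.sum_apply, Pi.single_apply]

end Abstract

section Glued

variable {R : Type u} [CommRing R] {𝔹 : TwoChart R} (N : GluedModule 𝔹)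

/-- The overlap module is a retract of a finite free module over the overlap ring as soon as the
first chart module is finitely generated projective. -/
theorem exists_retract₁₂_of_proj₁ [Module.Finite 𝔹.B₁ N.N₁] [Module.Projective 𝔹.B₁ N.N₁] :
    ∃ (n : ℕ) (J : N.N₁₂ →ₗ[𝔹.B₁₂] (Fin n → 𝔹.B₁₂)) (P : (Fin n → 𝔹.B₁₂) →ₗ[𝔹.B₁₂] N.N₁₂),
      P ∘ₗ J = LinearMap.id :=
  exists_retract_of_locLift (𝔹.r₁ : 𝔹.B₁ →+* 𝔹.B₁₂) 𝔹.f (𝔹.r₂ 𝔹.g) N.ι₁.toAddMonoidHom 𝔹.fg
    𝔹.surj₁ N.ι₁_smul N.surj₁ N.ker₁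

/-- Same from the second chart. -/
theorem exists_retract₁₂_of_proj₂ [Module.Finite 𝔹.B₂ N.N₂] [Module.Projective 𝔹.B₂ N.N₂] :
    ∃ (n : ℕ) (J : N.N₁₂ →ₗ[𝔹.B₁₂] (Fin n → 𝔹.B₁₂)) (P : (Fin n → 𝔹.B₁₂) →ₗ[𝔹.B₁₂] N.N₁₂),
      P ∘ₗ J = LinearMap.id :=
  exists_retract_of_locLift (𝔹.r₂ : 𝔹.B₂ →+* 𝔹.B₁₂) 𝔹.g (𝔹.r₁ 𝔹.f) N.ι₂.toAddMonoidHom
    (by rw [mul_comm]; exact 𝔹.fg) 𝔹.surj₂ N.ι₂_smul N.surj₂ N.ker₂

/-- `N₁₂` is finitely generated projective over `B₁₂` when `N₁` is over `B₁`. -/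
theorem finite_projective₁₂_of_proj₁ [Module.Finite 𝔹.B₁ N.N₁] [Module.Projective 𝔹.B₁ N.N₁] :
    Module.Finite 𝔹.B₁₂ N.N₁₂ ∧ Module.Projective 𝔹.B₁₂ N.N₁₂ := by
  obtain ⟨n, J, P, hPJ⟩ := exists_retract₁₂_of_proj₁ N
  refine ⟨Module.Finite.of_surjective P ?_, Module.Projective.of_split J P hPJ⟩
  intro y
  exact ⟨J y, LinearMap.congr_fun hPJ y⟩

/-- `N₁₂` is `R`-projective when `N₁` is finitely generated projective over `B₁` and `B₁₂` is
`R`-projective (e.g. `B₁₂ = R ⊗[k] A₁₂` over a field `k`). -/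
theorem projective_R₁₂_of_proj₁ [Module.Finite 𝔹.B₁ N.N₁] [Module.Projective 𝔹.B₁ N.N₁]
    [Module.Projective R 𝔹.B₁₂] : Module.Projective R N.N₁₂ := by
  obtain ⟨n, J, P, hPJ⟩ := exists_retract₁₂_of_proj₁ N
  have hpi : Module.Projective R (Fin n → 𝔹.B₁₂) :=
    Module.Projective.of_equiv'
      (DFinsupp.linearEquivFunOnFintype (R := R) (M := fun _ : Fin n => 𝔹.B₁₂))
  refine Module.Projective.of_split (J.restrictScalars R) (P.restrictScalars R) ?_
  apply LinearMap.ext
  intro y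
  exact LinearMap.congr_fun hPJ y

end Glued

end Fermat.Agent.S25.CONN.Count.H1390
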