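/-
S25 package A2 (helper1390): `HasPolyRetract R b M` -- "`M` is a direct summand of `R[X]^m`,
`R`-linearly and compatibly with `X ↦ b`" (i.e. `M` is finitely generated projective over `R[b]`,
stated without an `R[X]`-module instance) -- and the concrete form of (F) and (CB1):

for a two-chart `𝔹` over `R` with `HasPolyRetract R 𝔹.f 𝔹.B₁`, `HasPolyRetract R 𝔹.g 𝔹.B₂` and
`B₁₂` projective over `R` (all three hold for `𝒞.chart R`, see `ChartRetract.lean`), and any glued
module `N` whose chart modules are finitely generated projective (e.g. a line bundle):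

* `H1_finite`                 : `H¹(N)` is a finitely generated `R`-module;
* `projective_R₁`, `_R₂`, `_R₁₂` : `N₁`, `N₂`, `N₁₂` are `R`-projective;
* `H0_finite_projective_of_surjective` : if `H¹(N) = 0` then `H⁰(N)` is f.g. projective over `R`.

No noetherian hypothesis on `R`.
-/
import Fermat.Agent.S25.CONN.Count.H1390.H1Finite
import Fermat.Agent.S25.CONN.Count.H1390.H0Bound
import Fermat.Agent.S25.CONN.Count.H1390.LocLift

set_option autoImplicit false

universe u

namespace Fermat.Agent.S25.CONN.Count.H1390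

open Fermat.Agent.S25 Polynomial

/-- `M` is a direct summand of `R[X]^m`, `R`-linearly and compatibly with `X ↦ b`. -/
def HasPolyRetract (R : Type u) [CommRing R] {B : Type u} [CommRing B] (b : B)
    (M : Type u) [AddCommGroup M] [Module R M] [Module B M] : Prop :=
  ∃ (m : ℕ) (j : M →ₗ[R] (Fin m → R[X])) (π : (Fin m → R[X]) →ₗ[R] M),
    (∀ n, π (j n) = n) ∧ (∀ n, j (b • n) = (X : R[X]) • j n) ∧
      (∀ v, π ((X : R[X]) • v) = b • π v)

section

variable {R : Type u} [CommRing R] {B : Type u} [CommRing B] [Algebra R B] (b : B)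

/-- A finitely generated projective module over a ring with a polynomial retract has a polynomial
retract. -/
theorem HasPolyRetract.of_finite_projective (hB : HasPolyRetract R b B)
    (M : Type u) [AddCommGroup M] [Module R M] [Module B M] [IsScalarTower R B M]
    [Module.Finite B M] [Module.Projective B M] : HasPolyRetract R b M := by
  classical
  obtain ⟨m, j, π, hπj, hj, hπ⟩ := hB
  obtain ⟨n, p, q, -, -, hpq⟩ := Module.Finite.exists_comp_eq_id_of_projective B M
  have hpq' : ∀ x, p (q x) = x := fun x => LinearMap.congr_fun hpq x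
  let J : M →ₗ[R] (Fin (n * m) → R[X]) :=
    { toFun := fun x t => j (q x (finProdFinEquiv.symm t).1) (finProdFinEquiv.symm t).2
      map_add' := fun x y => by funext t; simp
      map_smul' := fun c x => by
        funext t
        have h1 : q (c • x) = c • q x := by
          rw [← algebraMap_smul B c x, map_smul, algebraMap_smul]
        simp [h1] }
  let P : (Fin (n * m) → R[X]) →ₗ[R] M :=
    { toFun := fun v => p (fun i => π (fun l => v (finProdFinEquiv (i, l))))
      map_add' := fun v w => by
        rw [← map_add]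
        congr 1
        funext i
        rw [Pi.add_apply, ← map_add]
        rfl
      map_smul' := fun c v => by
        have h1 : ∀ y : Fin n → B, p (c • y) = c • p y := by
          intro y
          rw [← algebraMap_smul B c y, map_smul, algebraMap_smul]
        rw [RingHom.id_apply, ← h1]
        congr 1
        funext i
        rw [Pi.smul_apply, ← map_smul]
        rfl }
  refine ⟨n * m, J, P, ?_, ?_, ?_⟩
  · intro x
    show p (fun i => π (fun l => j (q x (finProdFinEquiv.symm (finProdFinEquiv (i, l))).1)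
      (finProdFinEquiv.symm (finProdFinEquiv (i, l))).2)) = x
    simp only [Equiv.symm_apply_apply]
    have h1 : (fun i => π (fun l => j (q x i) l)) = q x := by
      funext i
      exact hπj (q x i)
    rw [h1, hpq']
  · intro x
    funext t
    show j (q (b • x) (finProdFinEquiv.symm t).1) (finProdFinEquiv.symm t).2 =
      (X : R[X]) * j (q x (finProdFinEquiv.symm t).1) (finProdFinEquiv.symm t).2
    rw [map_smul, Pi.smul_apply, hj]
    rfl
  · intro v
    show p (fun i => π (fun l => (X : R[X]) * v (finProdFinEquiv (i, l)))) =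
      b • p (fun i => π (fun l => v (finProdFinEquiv (i, l))))
    rw [← map_smul]
    congr 1
    funext i
    rw [Pi.smul_apply, ← hπ]
    rfl

end

section Glued

variable {R : Type u} [CommRing R] {𝔹 : TwoChart R} (N : GluedModule 𝔹)

/-- **(F), concrete form.**  `H¹(N)` is a finitely generated `R`-module as soon as `B₁` has a
polynomial retract and `N₁` is finitely generated projective over `B₁`. -/
theorem H1_finite (h₁ : HasPolyRetract R 𝔹.f 𝔹.B₁)
    [Module.Finite 𝔹.B₁ N.N₁] [Module.Projective 𝔹.B₁ N.N₁] : Module.Finite R N.H1 := by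
  classical
  obtain ⟨m, j, π, hπj, -, hπ⟩ := h₁.of_finite_projective 𝔹.f N.N₁
  exact H1_finite_of_span N _ (span_pow_smul_eq_top_of_retract (R := R) 𝔹.f j π hπj hπ)

/-- `N₁` is `R`-projective. -/
theorem projective_R₁ (h₁ : HasPolyRetract R 𝔹.f 𝔹.B₁)
    [Module.Finite 𝔹.B₁ N.N₁] [Module.Projective 𝔹.B₁ N.N₁] : Module.Projective R N.N₁ := by
  obtain ⟨m, j, π, hπj, -, -⟩ := h₁.of_finite_projective 𝔹.f N.N₁
  exact Module.Projective.of_split j π (LinearMap.ext hπj)

/-- `N₂` is `R`-projective. -/
theorem projective_R₂ (h₂ : HasPolyRetract R 𝔹.g 𝔹.B₂)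
    [Module.Finite 𝔹.B₂ N.N₂] [Module.Projective 𝔹.B₂ N.N₂] : Module.Projective R N.N₂ := by
  obtain ⟨m, j, π, hπj, -, -⟩ := h₂.of_finite_projective 𝔹.g N.N₂
  exact Module.Projective.of_split j π (LinearMap.ext hπj)

/-- **(CB1), concrete form.**  If `H¹(N) = 0` then `H⁰(N)` is a finitely generated projective
`R`-module. -/
theorem H0_finite_projective_of_surjective (h₁ : HasPolyRetract R 𝔹.f 𝔹.B₁)
    (h₂ : HasPolyRetract R 𝔹.g 𝔹.B₂) [Module.Projective R 𝔹.B₁₂]
    [Module.Finite 𝔹.B₁ N.N₁] [Module.Projective 𝔹.B₁ N.N₁]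
    [Module.Finite 𝔹.B₂ N.N₂] [Module.Projective 𝔹.B₂ N.N₂]
    (hd : Function.Surjective N.d) :
    Module.Finite R N.H0 ∧ Module.Projective R N.H0 := by
  obtain ⟨m₁, j₁, π₁, hπj₁, hj₁, hπ₁⟩ := h₁.of_finite_projective 𝔹.f N.N₁
  obtain ⟨m₂, j₂, π₂, hπj₂, hj₂, hπ₂⟩ := h₂.of_finite_projective 𝔹.g N.N₂
  have : Module.Projective R N.N₁₂ := projective_R₁₂_of_proj₁ N
  exact H0_finite_projective_of_retracts N j₁ π₁ hπj₁ hj₁ hπ₁ j₂ π₂ hπj₂ hj₂ hπ₂ hd

end Glued

end Fermat.Agent.S25.CONN.Count.H1390
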