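/-
S25 package A2/A0 (helper1390): the hypotheses of the concrete (F)/(CB1) of `PolyRetract.lean` hold
for the base-changed two-chart of a curve presentation.  For `𝒞 : CurveData k`, `k` algebraically
closed, and any `k`-algebra `R`:

* `transcendental_f`, `transcendental_g` : `f`, `g` are transcendental over `k`
  (smoothness of relative dimension one excludes `A_i = k`);
* `exists_poly_coords`  : `A_i ≃ k[X]^m` compatibly with `f ↦ X` (finite torsion-free over a PID);
* `hasPolyRetract₁`, `hasPolyRetract₂` : `R ⊗[k] A₁ ≃ R[X]^m` compatibly with `1 ⊗ f ↦ X`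
  (resp. `A₂`, `g`), i.e. `HasPolyRetract R (1 ⊗ₜ f) (R ⊗[k] A₁)`;
* `projective₁₂` : `R ⊗[k] A₁₂` is a projective (free) `R`-module.

These are exactly the hypotheses `h₁`, `h₂`, `[Module.Projective R 𝔹.B₁₂]` of `H1_finite` and
`H0_finite_projective_of_surjective` for any chart with `B_i = R ⊗[k] A_i`, `f = 1 ⊗ₜ 𝒞.f`,
`g = 1 ⊗ₜ 𝒞.g` (e.g. helper6408's `chart`).

Mathlib + `S25/Core.lean` only.
-/
import Fermat.Agent.S25.CONN.Count.H1390.PolyRetract

set_option autoImplicit false

universe u

namespace Fermat.Agent.S25.CONN.Count.H1390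

open Polynomial TensorProduct

/-- A surjective ring hom from a field to a nontrivial ring is not standard smooth of relative
dimension one. -/
theorem not_isStandardSmooth_one_of_surjective {k S : Type u} [Field k] [CommRing S] [Nontrivial S]
    (φ : k →+* S) (hφ : Function.Surjective φ) :
    ¬ φ.IsStandardSmoothOfRelativeDimension 1 := by
  intro h
  let _ : Algebra k S := φ.toAlgebra
  have h' : Algebra.IsStandardSmoothOfRelativeDimension 1 k S := h
  have h1 := Algebra.IsStandardSmoothOfRelativeDimension.rank_kaehlerDifferential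
    (R := k) (S := S) 1
  have : Subsingleton Ω[S⁄k] := KaehlerDifferential.subsingleton_of_surjective k S hφ
  rw [rank_subsingleton'] at h1
  simp at h1

/-- On a smooth affine curve over an algebraically closed field (a domain), a function `x` such
that the coordinate ring is finite over `k[x]` is transcendental. -/
theorem transcendental_of_locally_smooth {k : Type u} [Field k] [IsAlgClosed k] {A : Type u}
    [CommRing A] [IsDomain A] [Algebra k A]
    (hsm : RingHom.Locally (RingHom.IsStandardSmoothOfRelativeDimension 1) (algebraMap k A))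
    (x : A) [Module.Finite (Algebra.adjoin k ({x} : Set A)) A] : Transcendental k x := by
  intro halg
  have hint : IsIntegral k x := halg.isIntegral
  have hfin0 : Module.Finite k (Algebra.adjoin k ({x} : Set A)) :=
    Module.Finite.iff_fg.2 hint.fg_adjoin_singleton
  have hfin : Module.Finite k A := Module.Finite.trans (Algebra.adjoin k ({x} : Set A)) A
  have hI : Algebra.IsIntegral k A := Algebra.IsIntegral.of_finite k A
  have hsurj : Function.Surjective (algebraMap k A) :=
    (IsAlgClosed.algebraMap_bijective_of_isIntegral (k := k) (K := A)).2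
  obtain ⟨s, hs, h⟩ := hsm
  have hex : ∃ t ∈ s, t ≠ 0 := by
    by_contra hcon
    push Not at hcon
    have h0 : Ideal.span s = ⊥ := Ideal.span_eq_bot.2 hcon
    rw [h0] at hs
    exact bot_ne_top hs
  obtain ⟨t, hts, ht0⟩ := hex
  obtain ⟨c, rfl⟩ := hsurj t
  have hc : c ≠ 0 := by
    rintro rfl
    exact ht0 (map_zero _)
  have htu : IsUnit (algebraMap k A c) := (IsUnit.mk0 c hc).map _
  have hle : Submonoid.powers (algebraMap k A c) ≤ IsUnit.submonoid A := by
    rintro _ ⟨n, rfl⟩
    exact htu.pow n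
  have hs2 : Function.Surjective (algebraMap A (Localization.Away (algebraMap k A c))) :=
    (IsLocalization.atUnits A (Submonoid.powers (algebraMap k A c)) hle).surjective
  have hnt : Nontrivial (Localization.Away (algebraMap k A c)) :=
    (IsLocalization.atUnits A (Submonoid.powers (algebraMap k A c))
      (S := Localization.Away (algebraMap k A c)) hle).symm.toEquiv.nontrivial
  exact not_isStandardSmooth_one_of_surjective _ (hs2.comp hsurj) (h _ hts)

/-- A domain `A` finite over `k[f]` with `f` transcendental is a free `k[X]`-module of finite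
rank (`X` acting by `f`): coordinates. -/
theorem exists_poly_coords {k : Type u} [Field k] {A : Type u} [CommRing A] [IsDomain A]
    [Algebra k A] (f : A) (hf : Transcendental k f)
    [hfin : Module.Finite (Algebra.adjoin k ({f} : Set A)) A] :
    ∃ (m : ℕ) (e : A ≃ₗ[k] (Fin m → k[X])), ∀ a, e (f * a) = (X : k[X]) • e a := by
  classical
  let _ : Algebra k[X] A := (Polynomial.aeval f : k[X] →ₐ[k] A).toRingHom.toAlgebra
  have halg : ∀ p : k[X], algebraMap k[X] A p = aeval f p := fun p => rfl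
  have hsm : ∀ (p : k[X]) (a : A), p • a = aeval f p * a := fun p a => by
    rw [Algebra.smul_def, halg]
  have htower : IsScalarTower k k[X] A := by
    refine IsScalarTower.of_algebraMap_eq (fun c => ?_)
    rw [halg, Polynomial.algebraMap_apply, aeval_C]
    rfl
  -- finite
  have hfinX : Module.Finite k[X] A := by
    obtain ⟨s, hs⟩ := hfin.fg_top
    refine ⟨⟨s, ?_⟩⟩
    rw [eq_top_iff]
    intro a _
    have ha : a ∈ Submodule.span (Algebra.adjoin k ({f} : Set A)) (s : Set A) := by
      rw [hs]; trivial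
    refine Submodule.span_induction (p := fun x _ => x ∈ Submodule.span k[X] (s : Set A))
      ?_ ?_ ?_ ?_ ha
    · intro x hx
      exact Submodule.subset_span hx
    · exact Submodule.zero_mem _
    · intro x y _ _ hx hy
      exact Submodule.add_mem _ hx hy
    · intro c x _ hx
      have hc : (c : A) ∈ (Polynomial.aeval f : k[X] →ₐ[k] A).range := by
        rw [← Algebra.adjoin_singleton_eq_range_aeval]
        exact c.2
      obtain ⟨p, hp⟩ := hc
      have h1 : c • x = p • x := by
        rw [hsm, Subalgebra.smul_def, smul_eq_mul]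
        rw [← hp]
        rfl
      rw [h1]
      exact Submodule.smul_mem _ _ hx
  have htf : Module.IsTorsionFree k[X] A :=
    Module.isTorsionFree_iff_algebraMap_injective.2 (transcendental_iff_injective.1 hf)
  obtain ⟨n, b⟩ := Module.basisOfFiniteTypeTorsionFree' (R := k[X]) (M := A)
  refine ⟨n, b.equivFun.restrictScalars k, fun a => ?_⟩
  show b.equivFun (f * a) = (X : k[X]) • b.equivFun a
  rw [← map_smul, hsm, aeval_X]

/-- Base change of polynomial coordinates: if `A ≃ k[X]^m` compatibly with `f ↦ X`, then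
`R ⊗[k] A ≃ R[X]^m` compatibly with `1 ⊗ f ↦ X`. -/
theorem hasPolyRetract_tensor {k : Type u} [Field k] {A : Type u} [CommRing A] [Algebra k A]
    (f : A) (h : ∃ (m : ℕ) (e : A ≃ₗ[k] (Fin m → k[X])), ∀ a, e (f * a) = (X : k[X]) • e a)
    (R : Type u) [CommRing R] [Algebra k R] :
    HasPolyRetract R ((1 : R) ⊗ₜ[k] f) (R ⊗[k] A) := by
  classical
  obtain ⟨m, e, he⟩ := h
  let E₁ : R ⊗[k] A ≃ₗ[R] R ⊗[k] (Fin m → k[X]) :=
    TensorProduct.AlgebraTensorModule.congr (LinearEquiv.refl R R) e
  let E₂ : R ⊗[k] (Fin m → k[X]) ≃ₗ[R] (Fin m → R ⊗[k] k[X]) :=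
    TensorProduct.piRight k R R (fun _ : Fin m => k[X])
  let E₃ : (Fin m → R ⊗[k] k[X]) ≃ₗ[R] (Fin m → R[X]) :=
    LinearEquiv.piCongrRight (fun _ => (polyEquivTensor' k R).symm.toLinearEquiv)
  let E : R ⊗[k] A ≃ₗ[R] (Fin m → R[X]) := E₁ ≪≫ₗ E₂ ≪≫ₗ E₃
  have hE : ∀ n : R ⊗[k] A, E (((1 : R) ⊗ₜ[k] f) • n) = (X : R[X]) • E n := by
    intro n
    induction n using TensorProduct.induction_on with
    | zero => simp
    | tmul r a =>
      funext i
      have h1 : ((1 : R) ⊗ₜ[k] f) • (r ⊗ₜ[k] a) = r ⊗ₜ[k] (f * a) := by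
        rw [smul_eq_mul, Algebra.TensorProduct.tmul_mul_tmul, one_mul]
      rw [h1]
      have h2 : ∀ b : A, E (r ⊗ₜ[k] b) i = r • (e b i).map (algebraMap k R) := by
        intro b
        simp [E, E₁, E₂, E₃]
      rw [Pi.smul_apply, h2, h2, he, Pi.smul_apply, smul_eq_mul, Polynomial.map_mul,
        Polynomial.map_X, smul_eq_mul, mul_smul_comm]
    | add x y hx hy => rw [smul_add, map_add, hx, hy, map_add, smul_add]
  refine ⟨m, E.toLinearMap, E.symm.toLinearMap, fun n => E.symm_apply_apply n, hE, fun v => ?_⟩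
  apply E.injective
  rw [LinearEquiv.coe_coe, E.apply_symm_apply, hE, E.apply_symm_apply]

section Curve

variable {k : Type u} [Field k] [IsAlgClosed k] (𝒞 : CurveData k)

/-- `f` is transcendental over `k`. -/
theorem transcendental_f : Transcendental k 𝒞.f :=
  haveI := 𝒞.dom₁
  haveI := 𝒞.fin₁
  transcendental_of_locally_smooth 𝒞.smooth₁ 𝒞.f

/-- `g` is transcendental over `k`. -/
theorem transcendental_g : Transcendental k 𝒞.g :=
  haveI := 𝒞.dom₂
  haveI := 𝒞.fin₂
  transcendental_of_locally_smooth 𝒞.smooth₂ 𝒞.g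

/-- `A₁ ≃ k[X]^m` compatibly with `f ↦ X`. -/
theorem exists_poly_coords₁ :
    ∃ (m : ℕ) (e : 𝒞.A₁ ≃ₗ[k] (Fin m → k[X])), ∀ a, e (𝒞.f * a) = (X : k[X]) • e a :=
  haveI := 𝒞.dom₁
  haveI := 𝒞.fin₁
  exists_poly_coords 𝒞.f (transcendental_f 𝒞)

/-- `A₂ ≃ k[X]^m` compatibly with `g ↦ X`. -/
theorem exists_poly_coords₂ :
    ∃ (m : ℕ) (e : 𝒞.A₂ ≃ₗ[k] (Fin m → k[X])), ∀ a, e (𝒞.g * a) = (X : k[X]) • e a :=
  haveI := 𝒞.dom₂
  haveI := 𝒞.fin₂
  exists_poly_coords 𝒞.g (transcendental_g 𝒞)

variable (R : Type u) [CommRing R] [Algebra k R]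

/-- `R ⊗[k] A₁` is a finite free `R[X]`-module, `X` acting by `1 ⊗ f`. -/
theorem hasPolyRetract₁ : HasPolyRetract R ((1 : R) ⊗ₜ[k] 𝒞.f) (R ⊗[k] 𝒞.A₁) :=
  hasPolyRetract_tensor 𝒞.f (exists_poly_coords₁ 𝒞) R

/-- `R ⊗[k] A₂` is a finite free `R[X]`-module, `X` acting by `1 ⊗ g`. -/
theorem hasPolyRetract₂ : HasPolyRetract R ((1 : R) ⊗ₜ[k] 𝒞.g) (R ⊗[k] 𝒞.A₂) :=
  hasPolyRetract_tensor 𝒞.g (exists_poly_coords₂ 𝒞) R

omit [IsAlgClosed k] in
/-- `R ⊗[k] A₁₂` is a projective `R`-module. -/
theorem projective₁₂ : Module.Projective R (R ⊗[k] 𝒞.A₁₂) := inferInstance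

end Curve

end Fermat.Agent.S25.CONN.Count.H1390
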